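/-
Program R, S24 track (helper2).
BRIDGE between the prelude's places `AlgebraicCurve.Place K F` over a point of the `x`-line and the
primes of a Dedekind model:
* finite chart: `R` Dedekind with fraction field `F`, integral over (a ring mapping into) `K[t]`,
  `x = t`:  `#(fibre x a) = #{P : HeightOneSpectrum R // t - a ∈ P}`;
* chart at infinity: `R∞` Dedekind with fraction field `F`, `u ∈ R∞` with `u = x⁻¹`, every nonzero
  prime of `R∞` contains `u`, and `R∞` is finite at all poles of `x`:
  `#(polar x) = #(HeightOneSpectrum R∞)`.
These turn the prime counts of the dictionary (`Analytic/Dictionary.lean`, `CuspLocal/InftyDict`)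
into the hypotheses of `S24.genus_eq_genusFormula_of_counts`.
-/
import Mathlib
import Fermat.Agent.ProgramR.RHLocal.Global
import Fermat.Agent.ProgramR.FunctionField.PlaceDedekind
import Fermat.Agent.ProgramR.FunctionField.AlgClosed

set_option autoImplicit false

noncomputable section

namespace Fermat.Agent.ProgramR.S24

open AlgebraicCurve IsDedekindDomain Fermat.Agent.ProgramR.RHLocal Fermat.Agent.ProgramR.FF

variable {K F : Type*} [Field K] [Field F] [Algebra K F]

section Dedekind

variable {R : Type*} [CommRing R] [IsDedekindDomain R] [Algebra R F] [IsFractionRing R F]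
  [Algebra K R] [IsScalarTower K R F]

/-- **Core bridge**: the places at which `r ∈ R` vanishes, provided they are all finite on `R`,
are in bijection with the primes of `R` containing `r`. -/
theorem card_zeros_eq_card_primes (r : R) (hr : r ≠ 0)
    (hR : ∀ v : Place K F, 0 < v.ord (algebraMap R F r) →
      ∀ s : R, algebraMap R F s ∈ v.toValuationSubring) :
    Nat.card {v : Place K F // 0 < v.ord (algebraMap R F r)} =
      Nat.card {P : HeightOneSpectrum R // r ∈ P.asIdeal} := by
  symm
  refine Nat.card_congr (Equiv.ofBijective
    (fun P => ⟨Place.ofHeightOneSpectrum (K := K) (F := F) P.1,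
      (ord_algebraMap_pos_iff (K := K) (F := F) P.1 r hr).mpr P.2⟩) ⟨?_, ?_⟩)
  · intro P Q h
    have h' : Place.ofHeightOneSpectrum (K := K) (F := F) P.1 =
        Place.ofHeightOneSpectrum (K := K) (F := F) Q.1 := congrArg Subtype.val h
    exact Subtype.ext (ofHeightOneSpectrum_injective (K := K) (F := F) h')
  · rintro ⟨v, hv⟩
    have hmem : v ∈ Set.range (Place.ofHeightOneSpectrum (K := K) (F := F) (R := R)) := by
      rw [range_ofHeightOneSpectrum]
      exact hR v hv
    obtain ⟨P, rfl⟩ := hmem
    exact ⟨⟨P, (ord_algebraMap_pos_iff (K := K) (F := F) P r hr).mp hv⟩, rfl⟩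

omit [IsDedekindDomain R] [IsFractionRing R F] in
/-- If `t ∈ R` is finite at `v`, so is every element of `R` that is integral over a ring `A` whose
image in `R` lies in `K[t]`. -/
theorem algebraMap_mem_of_isIntegral {A : Type*} [CommRing A] [Algebra A R]
    (t : R) (hA : ∀ a' : A, algebraMap A R a' ∈ Algebra.adjoin K {t})
    (v : Place K F) (ht : algebraMap R F t ∈ v.toValuationSubring)
    {s : R} (hs : IsIntegral A s) : algebraMap R F s ∈ v.toValuationSubring := by
  -- `K[t]` is finite at `v`
  have hadj : ∀ y : R, y ∈ Algebra.adjoin K {t} → algebraMap R F y ∈ v.toValuationSubring := by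
    intro y hy
    induction hy using Algebra.adjoin_induction with
    | mem y hy =>
      rw [Set.mem_singleton_iff] at hy
      rw [hy]
      exact ht
    | algebraMap c =>
      rw [← IsScalarTower.algebraMap_apply K R F]
      exact v.algebraMap_mem' c
    | add y z _ _ hy hz =>
      rw [map_add]
      exact v.toValuationSubring.add_mem _ _ hy hz
    | mul y z _ _ hy hz =>
      rw [map_mul]
      exact v.toValuationSubring.mul_mem _ _ hy hz
  let _ : Algebra A F := ((algebraMap R F).comp (algebraMap A R)).toAlgebra
  have : IsScalarTower A R F := IsScalarTower.of_algebraMap_eq fun _ => rfl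
  refine mem_of_isIntegral_of_le v (S := A) (fun a' => ?_) ?_
  · show algebraMap R F (algebraMap A R a') ∈ v.toValuationSubring
    exact hadj _ (hA a')
  · exact hs.map (IsScalarTower.toAlgHom A R F)

/-- **Finite chart bridge.** -/
theorem card_fibre_eq_card_primes {A : Type*} [CommRing A] [Algebra A R] [Algebra.IsIntegral A R]
    (t : R) (hA : ∀ a' : A, algebraMap A R a' ∈ Algebra.adjoin K {t}) (a : K)
    (hta : t - algebraMap K R a ≠ 0) :
    Nat.card (fibre (K := K) (algebraMap R F t) a) =
      Nat.card {P : HeightOneSpectrum R // t - algebraMap K R a ∈ P.asIdeal} := by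
  have hx : algebraMap R F t - algebraMap K F a = algebraMap R F (t - algebraMap K R a) := by
    rw [map_sub, ← IsScalarTower.algebraMap_apply K R F]
  rw [← card_zeros_eq_card_primes (K := K) (F := F) (t - algebraMap K R a) hta]
  · unfold fibre
    rw [hx]
    rfl
  · intro v hv s
    refine algebraMap_mem_of_isIntegral (A := A) t hA v ?_ (Algebra.IsIntegral.isIntegral s)
    -- `t = (t - a) + a` is finite at `v`
    have h1 : algebraMap R F (t - algebraMap K R a) ∈ v.toValuationSubring :=
      mem_of_ord_nonneg v hv.le
    have h2 : algebraMap K F a ∈ v.toValuationSubring := v.algebraMap_mem' a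
    have h3 : algebraMap R F t = algebraMap R F (t - algebraMap K R a) + algebraMap K F a := by
      rw [← hx]
      ring
    rw [h3]
    exact v.toValuationSubring.add_mem _ _ h1 h2

/-- **Finite chart bridge, polynomial form**: `R` an integral `K[X]`-algebra, `t` the image of
`X`. -/
theorem card_fibre_eq_card_primes_poly [Algebra (Polynomial K) R] [IsScalarTower K (Polynomial K) R]
    [Algebra.IsIntegral (Polynomial K) R] (a : K)
    (hta : algebraMap (Polynomial K) R (Polynomial.X - Polynomial.C a) ≠ 0) :
    Nat.card (fibre (K := K) (algebraMap R F (algebraMap (Polynomial K) R Polynomial.X)) a) =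
      Nat.card {P : HeightOneSpectrum R //
        algebraMap (Polynomial K) R (Polynomial.X - Polynomial.C a) ∈ P.asIdeal} := by
  have hC : algebraMap (Polynomial K) R (Polynomial.C a) = algebraMap K R a := by
    rw [← Polynomial.algebraMap_eq, ← IsScalarTower.algebraMap_apply K (Polynomial K) R]
  have e : algebraMap (Polynomial K) R (Polynomial.X - Polynomial.C a) =
      algebraMap (Polynomial K) R Polynomial.X - algebraMap K R a := by
    rw [map_sub, hC]
  rw [e] at hta ⊢
  refine card_fibre_eq_card_primes (A := Polynomial K) _ (fun p => ?_) a hta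
  have : algebraMap (Polynomial K) R p =
      Polynomial.aeval (algebraMap (Polynomial K) R Polynomial.X) p := by
    have h1 : (Polynomial.aeval (algebraMap (Polynomial K) R Polynomial.X) :
        Polynomial K →ₐ[K] R) = IsScalarTower.toAlgHom K (Polynomial K) R := by
      apply Polynomial.algHom_ext
      simp
    rw [h1]
    rfl
  rw [this]
  exact Polynomial.aeval_mem_adjoin_singleton K _

end Dedekind

section Infinity

variable {R : Type*} [CommRing R] [IsDedekindDomain R] [Algebra R F] [IsFractionRing R F]
  [Algebra K R] [IsScalarTower K R F]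

/-- **Chart at infinity bridge.** `u ∈ R` with `u = x⁻¹`, every nonzero prime of `R` contains `u`,
and `R` is finite at every pole of `x`. -/
theorem card_polar_eq_card_primes (x : F) (u : R) (hu : algebraMap R F u = x⁻¹) (hx0 : x ≠ 0)
    (hP : ∀ P : HeightOneSpectrum R, u ∈ P.asIdeal)
    (hR : ∀ v : Place K F, v.ord x < 0 → ∀ s : R, algebraMap R F s ∈ v.toValuationSubring) :
    Nat.card (polar (K := K) x) = Nat.card (HeightOneSpectrum R) := by
  have hu0 : u ≠ 0 := by
    rintro rfl
    rw [map_zero] at hu
    exact inv_ne_zero hx0 hu.symm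
  have hord : ∀ v : Place K F, v.ord (algebraMap R F u) = -v.ord x := fun v => by
    rw [hu, Place.ord_inv]
  have h1 := card_zeros_eq_card_primes (K := K) (F := F) u hu0 (fun v hv s => hR v (by
    rw [hord] at hv
    omega) s)
  have h2 : Nat.card {P : HeightOneSpectrum R // u ∈ P.asIdeal} = Nat.card (HeightOneSpectrum R) :=
    Nat.card_congr (Equiv.subtypeUnivEquiv hP)
  rw [← h2, ← h1]
  unfold polar
  refine Nat.card_congr (Equiv.subtypeEquivRight fun v => ?_)
  rw [hord]
  simp only [Set.mem_ofPred_eq]
  omega

end Infinity

end Fermat.Agent.ProgramR.S24
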