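/-
Program R, S24 track (helper2).
REDUCTION of S24 (genus of the function field of `X₀(N)` over `ℚ̄`) to fibre counts of the
`j`-line: degree `ψ(N)`, unramified outside `{0, 1728, ∞}`, and the number of places over
`0`, `1728`, `∞`.  Pure algebra: Riemann–Hurwitz (`RHLocal/Global.lean`) + the arithmetic of
`Counting/GenusNat.lean`.
-/
import Fermat.Agent.ProgramR.RHLocal.Global
import Fermat.Agent.ProgramR.Counting.GenusNat
import Fermat.Prelude.Def_ModularCurve_GenusNumerics

set_option autoImplicit false

noncomputable section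

namespace Fermat.Agent.ProgramR.S24

open AlgebraicCurve IntermediateField Fermat.Agent.ProgramR.RHLocal

variable {K F : Type*} [Field K] [Field F] [Algebra K F] [CharZero K] [IsAlgClosed K]

/-- **Abstract S24.** If `F / K(x)` has degree `ψ(N)`, is unramified outside `0, 1728, ∞`, and
the numbers of places over `0`, `1728`, `∞` are `(ψ+2ν₃)/3`, `(ψ+ν₂)/2`, `cuspCount N`, then the
prelude's genus of `F / K` is the classical genus formula. -/
theorem genus_eq_genusFormula_of_counts (N : ℕ) [NeZero N]
    [HasCanonicalDivisor (K := K) (F := F)]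
    (x : F) (hx : Transcendental K x) [FiniteDimensional K⟮x⟯ F]
    (hn : Module.finrank K⟮x⟯ F = ModularCurve.dedekindPsi N)
    (hgen : ∀ a : K, a ≠ 0 → a ≠ 1728 → Nat.card (fibre x a) = ModularCurve.dedekindPsi N)
    (h0 : 3 * Nat.card (fibre x (0 : K)) = ModularCurve.dedekindPsi N + 2 * ModularCurve.nuThree N)
    (h1728 : 2 * Nat.card (fibre x (1728 : K))
      = ModularCurve.dedekindPsi N + ModularCurve.nuTwo N)
    (hinf : Nat.card (polar (K := K) x) = ModularCurve.cuspCount N) :
    (AlgebraicCurve.genus K F : ℚ) = ModularCurve.genusFormula N := by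
  classical
  obtain ⟨g, k₂, k₃, e2, e3, eg, hg⟩ := Genus.genus_counts N
  rw [← hg]
  congr 1
  have h1728ne : (1728 : K) ≠ 0 := by norm_num
  refine genus_eq_of_fibre_counts' x hx {0, 1728} ?_ g ?_
  · intro a ha
    rw [Finset.mem_insert, Finset.mem_singleton, not_or] at ha
    rw [hn]
    exact hgen a ha.1 ha.2
  · rw [Finset.sum_pair h1728ne.symm, hn, hinf]
    have c0 : Nat.card (fibre x (0 : K)) = ModularCurve.nuThree N + k₃ := by omega
    have c1 : Nat.card (fibre x (1728 : K)) = ModularCurve.nuTwo N + k₂ := by omega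
    rw [c0, c1]
    push_cast
    have eg' : ((ModularCurve.nuTwo N : ℤ) + k₂) + ModularCurve.cuspCount N
        + ((ModularCurve.nuThree N : ℤ) + k₃) + 2 * g = ModularCurve.dedekindPsi N + 2 := by
      exact_mod_cast eg
    linarith

end Fermat.Agent.ProgramR.S24
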