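/-
Program R, S24 track, package [BC-asm] (helper2).
Final assembly of S24 for the formal function field `FBar L N` over an algebraically closed field
`L` of characteristic zero, from the three inputs
* (deg) `[FBar : L(j)] = ψ(N)`,
* (fin) the fibre counts over `a ∈ L` (generic, `0`, `1728`),
* (inf) the polar count `= cuspCount N`,
via `S24.genus_eq_genusFormula_of_counts`.
-/
import Mathlib
import Fermat.Agent.ProgramR.S24.Reduction
import Fermat.Agent.ProgramR.BarField.Model
import Fermat.Agent.ProgramR.BarField.FiniteChart
import Fermat.Agent.ProgramR.BarField.Degree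
import Fermat.Agent.ProgramR.BarField.PolarBar

set_option autoImplicit false

noncomputable section

namespace Fermat.Agent.ProgramR.S24

open AlgebraicCurve IntermediateField Fermat.Agent.ProgramR.RHLocal
open Fermat.Agent.ProgramR.BarField

section Generic

variable (L : Type*) [Field L] [Algebra ℚ L] [IsAlgClosed L] [CharZero L] (N : ℕ) [NeZero N]

/-- **S24, assembled**: the three inputs give the genus of `FBar L N`. -/
theorem genus_FBar_of_inputs
    [HasCanonicalDivisor (K := L) (F := FBar L N)]
    [FiniteDimensional L⟮jBar L N⟯ (FBar L N)]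
    (hdeg : Module.finrank L⟮jBar L N⟯ (FBar L N) = ModularCurve.dedekindPsi N)
    (hgen : ∀ a : L, a ≠ 0 → a ≠ 1728 →
      Nat.card (fibre (K := L) (jBar L N) a) = ModularCurve.dedekindPsi N)
    (h0 : 3 * Nat.card (fibre (K := L) (jBar L N) (0 : L)) =
      ModularCurve.dedekindPsi N + 2 * ModularCurve.nuThree N)
    (h1728 : 2 * Nat.card (fibre (K := L) (jBar L N) (1728 : L)) =
      ModularCurve.dedekindPsi N + ModularCurve.nuTwo N)
    (hinf : Nat.card (polar (K := L) (jBar L N)) = ModularCurve.cuspCount N) :
    (AlgebraicCurve.genus L (FBar L N) : ℚ) = ModularCurve.genusFormula N :=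
  genus_eq_genusFormula_of_counts N (jBar L N) (transcendental_jBar L N) hdeg hgen h0 h1728 hinf

/-- **S24 from the polar count**: for any algebraically closed `L` of characteristic zero with an
embedding into `ℂ`, the genus formula follows from the count of poles of `j̄`. -/
theorem genus_FBar_of_polar (e : L →+* ℂ)
    [HasCanonicalDivisor (K := L) (F := FBar L N)]
    (hinf : Nat.card (polar (K := L) (jBar L N)) = ModularCurve.cuspCount N) :
    (AlgebraicCurve.genus L (FBar L N) : ℚ) = ModularCurve.genusFormula N := by
  haveI : FiniteDimensional (RatFunc L) (FBar L N) := finiteDimensional_ratFunc_of_emb N e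
  haveI : FiniteDimensional L⟮jBar L N⟯ (FBar L N) := finiteDimensional_jBar N e
  have hdeg := finrank_ratFunc_of_emb N e
  exact genus_FBar_of_inputs L N (finrank_jBar N e)
    (fun a h0 h1728 => card_fibre_generic L N e hdeg a h0 h1728)
    (three_mul_card_fibre_zero L N e hdeg) (two_mul_card_fibre_1728 L N e hdeg) hinf

/-- **S24, unconditional, for any algebraically closed subfield of `ℂ`**. -/
theorem genus_FBar (e : L →+* ℂ) [HasCanonicalDivisor (K := L) (F := FBar L N)] :
    (AlgebraicCurve.genus L (FBar L N) : ℚ) = ModularCurve.genusFormula N := by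
  haveI : FiniteDimensional (RatFunc L) (FBar L N) := finiteDimensional_ratFunc_of_emb N e
  exact genus_FBar_of_polar L N e (card_polar_jBar N e (finrank_ratFunc_of_emb N e))

end Generic

/-- **S24** for `ℚ̄`: the genus of the function field of `X₀(N)` over `ℚ̄`. -/
theorem genus_modularFunctionFieldBar (N : ℕ) [NeZero N]
    [HasCanonicalDivisor (K := AlgebraicClosure ℚ) (F := ↥(ModularCurve.modularFunctionFieldBar N))] :
    (AlgebraicCurve.genus (AlgebraicClosure ℚ) ↥(ModularCurve.modularFunctionFieldBar N) : ℚ)
      = ModularCurve.genusFormula N :=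
  genus_FBar (AlgebraicClosure ℚ) N qbarEmb

end Fermat.Agent.ProgramR.S24
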